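import Mathlib
import Fermat.Agent.Lib.Torsion.Reduced

section MergeWrap_Lib_Torsion_TorsionGroup -- from Lib/Torsion/TorsionGroup.lean

/-!
# The torsion subgroups: multiplicativity of cardinalities and the 2-torsion
-/

set_option autoImplicit false

namespace Fermat.Agent.Torsion

open Polynomial S05H65

section Defs

variable {K : Type*} [Field K] [DecidableEq K] (W : WeierstrassCurve.Affine K)

/-- The `n`-torsion subgroup of the group of points. -/
def torSub (n : ℕ) : AddSubgroup W.Point := (nsmulAddMonoidHom (α := W.Point) n).ker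

variable {W}

@[simp] lemma mem_torSub {n : ℕ} {P : W.Point} : P ∈ torSub W n ↔ n • P = 0 := Iff.rfl

variable (W)

/-- The number of `n`-torsion points. -/
noncomputable def tcard (n : ℕ) : ℕ := Nat.card (torSub W n)

lemma tcard_eq_ncard (n : ℕ) : tcard W n = {P : W.Point | n • P = 0}.ncard := by
  rw [tcard, ← Nat.card_coe_set_eq]
  rfl

lemma tcard_one : tcard W 1 = 1 := by
  rw [tcard]
  have : torSub W 1 = ⊥ := by
    ext P
    simp [mem_torSub]
  rw [this]
  simp

end Defs

section CharZero

variable {K : Type*} [Field K] [DecidableEq K] [CharZero K] (W : WeierstrassCurve.Affine K)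

lemma finite_torSub (n : ℕ) (hn : 1 ≤ n) : Finite (torSub W n) :=
  (finite_torsion (W := W) n hn).to_subtype

lemma tcard_pos (n : ℕ) (hn : 1 ≤ n) : 0 < tcard W n := by
  have := finite_torSub W n hn
  exact Nat.card_pos

end CharZero

section AlgClosed

variable {K : Type*} [Field K] [DecidableEq K] [IsAlgClosed K] [CharZero K]
variable {W : WeierstrassCurve.Affine K}

/-- Multiplication by `m` as a map from `mn`-torsion to `n`-torsion. -/
def torMap (W : WeierstrassCurve.Affine K) (m n : ℕ) : torSub W (m * n) →+ torSub W n where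
  toFun P := ⟨m • (P : W.Point), by
    have := P.2
    rw [mem_torSub] at this ⊢
    rw [← mul_smul, mul_comm]
    exact this⟩
  map_zero' := by ext; simp
  map_add' P Q := by ext; simp [smul_add]

lemma torMap_surjective (hΔ : W.Δ ≠ 0) {m : ℕ} (hm : 1 ≤ m) (n : ℕ) :
    Function.Surjective (torMap W m n) := by
  rintro ⟨R, hR⟩
  obtain ⟨P, hP⟩ := smul_surjective (W := W) hΔ hm R
  simp only at hP
  refine ⟨⟨P, ?_⟩, Subtype.ext hP⟩
  rw [mem_torSub] at hR ⊢
  rw [mul_comm, mul_smul, hP]
  exact hR

/-- The kernel of `torMap` is the `m`-torsion. -/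
noncomputable def torMapKerEquiv (W : WeierstrassCurve.Affine K) (m n : ℕ) :
    (torMap W m n).ker ≃ torSub W m where
  toFun P := ⟨(P : torSub W (m * n)), by
    have := P.2
    rw [AddMonoidHom.mem_ker] at this
    have h2 := congrArg Subtype.val this
    exact h2⟩
  invFun P := ⟨⟨(P : W.Point), by
      have := P.2
      rw [mem_torSub] at this ⊢
      rw [mul_comm, mul_smul, this, smul_zero]⟩, by
    rw [AddMonoidHom.mem_ker]
    exact Subtype.ext P.2⟩
  left_inv P := by ext; rfl
  right_inv P := by ext; rfl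

theorem tcard_mul (hΔ : W.Δ ≠ 0) {m : ℕ} (hm : 1 ≤ m) (n : ℕ) :
    tcard W (m * n) = tcard W n * tcard W m := by
  rw [tcard, tcard, tcard]
  rw [AddSubgroup.card_eq_card_quotient_mul_card_addSubgroup (torMap W m n).ker]
  rw [Nat.card_congr (torMapKerEquiv W m n)]
  rw [Nat.card_congr
    (QuotientAddGroup.quotientKerEquivOfSurjective (torMap W m n)
      (torMap_surjective hΔ hm n)).toEquiv]

end AlgClosed

end Fermat.Agent.Torsion
end MergeWrap_Lib_Torsion_TorsionGroup

section MergeWrap_Lib_Torsion_TwoTorsion -- from Lib/Torsion/TwoTorsion.lean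

/-!
# The 2-torsion has exactly four points; `2^k`-torsion has `4^k` points
-/

set_option autoImplicit false

namespace Fermat.Agent.Torsion

open Polynomial S05H65

section AlgClosed

variable {K : Type*} [Field K] [DecidableEq K] [IsAlgClosed K] [CharZero K]
variable {W : WeierstrassCurve.Affine K}

omit [DecidableEq K] [IsAlgClosed K] [CharZero K] in
lemma eval_twoTorsionPolynomial (x : K) :
    (WeierstrassCurve.twoTorsionPolynomial W).toPoly.eval x = psi2sq W x := by
  simp [WeierstrassCurve.twoTorsionPolynomial, Cubic.toPoly, psi2sq]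

lemma card_roots_twoTorsion (hΔ : W.Δ ≠ 0) :
    (WeierstrassCurve.twoTorsionPolynomial W).toPoly.roots.toFinset.card = 3 := by
  have ha : (WeierstrassCurve.twoTorsionPolynomial W).a ≠ 0 := by
    simp [WeierstrassCurve.twoTorsionPolynomial]
  have hd : (WeierstrassCurve.twoTorsionPolynomial W).discr ≠ 0 := by
    rw [WeierstrassCurve.twoTorsionPolynomial_discr]
    exact mul_ne_zero (by norm_num) hΔ
  have h3 : ((WeierstrassCurve.twoTorsionPolynomial W).toPoly.map (RingHom.id K)).Splits :=
    IsAlgClosed.splits _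
  have := Cubic.card_roots_of_discr_ne_zero (φ := RingHom.id K) ha h3 hd
  simpa [Cubic.roots, Cubic.map] using this

lemma twoTorsionPolynomial_ne_zero :
    (WeierstrassCurve.twoTorsionPolynomial W).toPoly ≠ 0 := by
  apply Cubic.ne_zero_of_a_ne_zero
  simp [WeierstrassCurve.twoTorsionPolynomial]

theorem tcard_two (hΔ : W.Δ ≠ 0) : tcard W 2 = 4 := by
  rw [tcard_eq_ncard]
  set S₀ : Set W.Point := {P | P ≠ 0 ∧ 2 • P = 0} with hS₀
  have hS : {P : W.Point | 2 • P = 0} = insert 0 S₀ := by
    ext P
    constructor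
    · intro hP
      by_cases h0 : P = 0
      · exact Or.inl h0
      · exact Or.inr ⟨h0, hP⟩
    · rintro (h | h)
      · rw [h]; exact smul_zero 2
      · exact h.2
  have hfin : S₀.Finite := (finite_torsion (W := W) 2 (by norm_num)).subset fun P hP => hP.2
  have h0 : (0 : W.Point) ∉ S₀ := fun h => h.1 rfl
  rw [hS, Set.ncard_insert_of_notMem h0 hfin]
  -- count `S₀` via `px`
  have hinj : Set.InjOn px S₀ := by
    rintro P ⟨hP, hP2⟩ P' ⟨hP', hP2'⟩ hpx
    rcases eq_or_eq_neg_of_px_eq hP hP' hpx with h | h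
    · exact h
    · rw [h]
      rw [two_nsmul] at hP2'
      exact (eq_neg_of_add_eq_zero_left hP2').symm
  have himg : px '' S₀ = ((WeierstrassCurve.twoTorsionPolynomial W).toPoly.roots.toFinset : Set K) := by
    ext x
    simp only [Set.mem_image, Finset.mem_coe, Multiset.mem_toFinset,
      mem_roots twoTorsionPolynomial_ne_zero, IsRoot.def, eval_twoTorsionPolynomial]
    constructor
    · rintro ⟨P, ⟨hP, hP2⟩, rfl⟩
      rw [two_nsmul] at hP2
      exact (add_self_eq_zero_iff hP).mp hP2
    · intro hx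
      refine ⟨pointOver hΔ x, ⟨pointOver_ne_zero hΔ x, ?_⟩, px_pointOver hΔ x⟩
      rw [two_nsmul]
      apply (add_self_eq_zero_iff (pointOver_ne_zero hΔ x)).mpr
      rw [px_pointOver]
      exact hx
  have hcard : S₀.ncard = 3 := by
    rw [← hinj.ncard_image, himg, Set.ncard_coe_finset, card_roots_twoTorsion hΔ]
  rw [hcard]

theorem tcard_two_pow (hΔ : W.Δ ≠ 0) (k : ℕ) : tcard W (2 ^ k) = 4 ^ k := by
  induction k with
  | zero => simpa using tcard_one W
  | succ k ih =>
    rw [pow_succ', tcard_mul hΔ (by norm_num : 1 ≤ 2), ih, tcard_two hΔ, pow_succ]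

end AlgClosed

end Fermat.Agent.Torsion
end MergeWrap_Lib_Torsion_TwoTorsion

section MergeWrap_Lib_Torsion_Generic -- from Lib/Torsion/Generic.lean

/-!
# Lower bound: the degree of the reduced numerator is at most the number of `n`-torsion points

For a generic value `x₀` the polynomial `F' - x₀ G'` has only simple roots (Wronskian argument,
characteristic zero), each root gives a point `P` with `n • P = R₀` for a fixed `R₀` over `x₀`, and
the fibre of multiplication by `n` over `R₀` is a coset of the `n`-torsion.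
-/

set_option autoImplicit false

namespace Fermat.Agent.Torsion

open Polynomial S05H65

section Wronskian

variable {K : Type*} [Field K] [CharZero K] {F' G' : K[X]}

/-- The Wronskian of a coprime pair with `deg F' ≥ 1` is nonzero in characteristic zero. -/
lemma wronskian_ne_zero (hcop : IsCoprime F' G') (hdeg : F'.natDegree ≠ 0) :
    derivative F' * G' - F' * derivative G' ≠ 0 := by
  intro h0
  have h1 : F' ∣ derivative F' * G' := ⟨derivative G', by linear_combination h0⟩
  have h2 : F' ∣ derivative F' := hcop.dvd_of_dvd_mul_right h1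
  have h3 : derivative F' = 0 := eq_zero_of_dvd_of_natDegree_lt h2 (natDegree_derivative_lt hdeg)
  exact hdeg (Polynomial.derivative_eq_zero.mp h3)

/-- Away from the values `F'(c)/G'(c)` at the roots `c` of the Wronskian, all roots of
`F' - x₀ G'` are simple. -/
lemma rootMultiplicity_le_one [DecidableEq K] (hcop : IsCoprime F' G')
    (hdeg : F'.natDegree = G'.natDegree + 1)
    {x₀ : K} (hx₀ : x₀ ∉ badVal (derivative F' * G' - F' * derivative G') F' G') (c : K) :
    rootMultiplicity c (F' - C x₀ * G') ≤ 1 := by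
  have hW := wronskian_ne_zero hcop (by omega : F'.natDegree ≠ 0)
  have hne : F' - C x₀ * G' ≠ 0 := by
    intro h0
    have := natDegree_sub_eq_left_of_natDegree_lt (p := F') (q := C x₀ * G')
      (lt_of_le_of_lt (natDegree_C_mul_le _ _) (by omega))
    rw [h0, natDegree_zero] at this
    omega
  by_contra hgt
  rw [not_le] at hgt
  obtain ⟨hr, hd⟩ := (one_lt_rootMultiplicity_iff_isRoot hne).mp hgt
  have e1 : F'.eval c = x₀ * G'.eval c := by
    have := hr
    simp only [IsRoot.def, eval_sub, eval_mul, eval_C] at this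
    linear_combination this
  have e2 : (derivative F').eval c = x₀ * (derivative G').eval c := by
    have := hd
    simp only [IsRoot.def, derivative_sub, derivative_mul, derivative_C, zero_mul, zero_add,
      eval_sub, eval_mul, eval_C] at this
    linear_combination this
  have hG'c : G'.eval c ≠ 0 := by
    intro h0
    obtain ⟨a, b, hab⟩ := hcop
    have := congrArg (Polynomial.eval c) hab
    simp [e1, h0] at this
  apply hx₀
  rw [badVal, Finset.mem_image]
  refine ⟨c, ?_, ?_⟩
  · rw [Multiset.mem_toFinset, mem_roots hW]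
    simp only [IsRoot.def, eval_sub, eval_mul, e1, e2]
    ring
  · rw [e1, mul_div_assoc, div_self hG'c, mul_one]

end Wronskian

section AlgClosed

variable {K : Type*} [Field K] [DecidableEq K] [IsAlgClosed K] [CharZero K]
variable {W : WeierstrassCurve.Affine K} {n : ℕ} {Q F' G' : K[X]}

/-- The fibre of multiplication by `n` over any point has as many elements as the `n`-torsion. -/
lemma ncard_smul_eq (hΔ : W.Δ ≠ 0) (hn : 1 ≤ n) (R : W.Point) :
    {P : W.Point | n • P = R}.ncard = tcard W n := by
  obtain ⟨P₀, hP₀⟩ := smul_surjective (W := W) hΔ hn R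
  simp only at hP₀
  rw [tcard_eq_ncard]
  have : {P : W.Point | n • P = R} = (fun P => P + P₀) '' {P : W.Point | n • P = 0} := by
    ext P
    constructor
    · intro hP
      refine ⟨P - P₀, ?_, sub_add_cancel P P₀⟩
      show n • (P - P₀) = 0
      have hP' : n • P = R := hP
      rw [smul_sub, hP', hP₀, sub_self]
    · rintro ⟨P', hP', rfl⟩
      have hP'' : n • P' = 0 := hP'
      show n • (P' + P₀) = R
      rw [smul_add, hP'', hP₀, zero_add]
  rw [this, Set.ncard_image_of_injective _ (add_left_injective P₀)]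

lemma finite_smul_eq (hΔ : W.Δ ≠ 0) (hn : 1 ≤ n) (R : W.Point) :
    {P : W.Point | n • P = R}.Finite := by
  apply Set.finite_of_ncard_pos
  rw [ncard_smul_eq hΔ hn R]
  exact tcard_pos W n hn

/-- **Lower bound.** The degree of the reduced numerator of the ladder fraction is at most the
number of `n`-torsion points. -/
theorem natDegree_le_tcard (hΔ : W.Δ ≠ 0) (hn : 1 ≤ n)
    (h : IsReduced (ladF W n) (ladG W n) Q F' G') : F'.natDegree ≤ tcard W n := by
  classical
  have hG := ladG_ne_zero W n hn
  have hF := ladF_ne_zero W n hn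
  have hdeg : F'.natDegree = G'.natDegree + 1 :=
    h.natDegree_F' hF hG (by rw [(natDegree_ladF W n hn).1, (natDegree_ladG W n hn).1])
  -- choose a generic value
  set Wr := derivative F' * G' - F' * derivative G' with hWr
  obtain ⟨x₀, hx₀⟩ := Infinite.exists_notMem_finset (badVal Q F' G' ∪ badVal Wr F' G')
  rw [Finset.mem_union, not_or] at hx₀
  obtain ⟨hx₁, hx₂⟩ := hx₀
  set p := F' - C x₀ * G' with hp
  have hpdeg : p.natDegree = F'.natDegree := natDegree_sub_C_mul hdeg x₀
  have hnodup : p.roots.Nodup := by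
    rw [Multiset.nodup_iff_count_le_one]
    intro c
    rw [count_roots]
    exact rootMultiplicity_le_one h.cop hdeg hx₂ c
  have hcard : p.roots.toFinset.card = F'.natDegree := by
    rw [Multiset.toFinset_card_of_nodup hnodup, IsAlgClosed.card_roots_eq_natDegree, hpdeg]
  have hp0 : p ≠ 0 := by
    intro h0
    rw [h0, natDegree_zero] at hpdeg
    omega
  set R₀ := pointOver hΔ x₀ with hR₀
  have hR₀0 : R₀ ≠ 0 := pointOver_ne_zero hΔ x₀
  let f : K → W.Point := fun c =>
    if n • pointOver hΔ c = R₀ then pointOver hΔ c else - pointOver hΔ c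
  have hpxf : ∀ c, px (f c) = c := by
    intro c
    simp only [f]
    split_ifs
    · exact px_pointOver hΔ c
    · rw [px_neg]; exact px_pointOver hΔ c
  have hmaps : ∀ c ∈ (p.roots.toFinset : Set K), f c ∈ {P : W.Point | n • P = R₀} := by
    intro c hc
    rw [Finset.mem_coe, Multiset.mem_toFinset, mem_roots hp0] at hc
    have hc' : (F' - C x₀ * G').eval c = 0 := hc
    have hGc := ladG_eval_ne_zero_of_root h hG hx₁ hc'
    have hP : pointOver hΔ c ≠ 0 := pointOver_ne_zero hΔ c
    have hpx : px (pointOver hΔ c) = c := px_pointOver hΔ c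
    rw [← hpx] at hGc hc'
    obtain ⟨hnP, hev, hG'⟩ := reduced_eval h hn hP hGc
    have hc'' : F'.eval (px (pointOver hΔ c)) = x₀ * G'.eval (px (pointOver hΔ c)) := by
      simpa [sub_eq_zero] using hc'
    rw [hev] at hc''
    have hx : px (n • pointOver hΔ c) = px R₀ := by
      rw [hR₀, px_pointOver]
      exact mul_right_cancel₀ hG' hc''
    show n • f c = R₀
    simp only [f]
    split_ifs with hif
    · exact hif
    · rcases eq_or_eq_neg_of_px_eq hnP hR₀0 hx with h1 | h1
      · exact absurd h1 hif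
      · rw [smul_neg, h1, neg_neg]
  have hinj : Set.InjOn f (p.roots.toFinset : Set K) := by
    intro c _ c' _ hcc
    rw [← hpxf c, ← hpxf c', hcc]
  have := Set.ncard_le_ncard_of_injOn f hmaps hinj (finite_smul_eq hΔ hn R₀)
  rw [Set.ncard_coe_finset, hcard, ncard_smul_eq hΔ hn R₀] at this
  exact this

end AlgClosed

end Fermat.Agent.Torsion
end MergeWrap_Lib_Torsion_Generic

section MergeWrap_Lib_Torsion_Parallelogram -- from Lib/Torsion/Parallelogram.lean

/-!
# Upper bound: `#E[n+1] + #E[n-1] ≤ 2 deg F' + 2`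

For a generic point `R₀` the points `P` with `(n+1) • P = R₀` or `(n-1) • P = R₀` have pairwise
distinct `x`-coordinates, and all of them are roots of one polynomial of degree `2 deg F' + 2`
obtained from the symmetric sum and product formulas.
-/

set_option autoImplicit false

namespace Fermat.Agent.Torsion

open Polynomial S05H65

section Poly

variable {K : Type*} [Field K] (W : WeierstrassCurve.Affine K)

/-- The numerator of the symmetric product formula. -/
noncomputable def ladT (F G : K[X]) : K[X] :=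
  F ^ 2 * X ^ 2 - C W.b₄ * F * G * X - C W.b₆ * (F + X * G) * G - C W.b₈ * G ^ 2

/-- The polynomial whose roots contain the `x`-coordinates of the points `P` with
`x((n+1)P) = z` or `x((n-1)P) = z`. -/
noncomputable def parPoly (F G : K[X]) (z : K) : K[X] :=
  ladD F G * C (z ^ 2) - ladN W F G * C z + ladT W F G

lemma eval_ladT (F G : K[X]) (x : K) :
    (ladT W F G).eval x = F.eval x ^ 2 * x ^ 2 - W.b₄ * F.eval x * G.eval x * x
      - W.b₆ * (F.eval x + x * G.eval x) * G.eval x - W.b₈ * G.eval x ^ 2 := by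
  simp [ladT]

lemma eval_parPoly (F G : K[X]) (z x : K) :
    (parPoly W F G z).eval x = (ladD F G).eval x * z ^ 2 - (ladN W F G).eval x * z
      + (ladT W F G).eval x := by
  simp [parPoly]

lemma lead_parPoly {F G : K[X]} {d : ℕ} {a : K} (hF : Lead F (d + 1) a) (hG : G.natDegree ≤ d)
    (z : K) : Lead (parPoly W F G z) (2 * d + 4) (a ^ 2) := by
  have hG' : Lead G d (G.coeff d) := ⟨hG, rfl⟩
  have hXG : Lead (X * G) (d + 1) (G.coeff d) := (lead_X.mul hG').congr (by ring) (by ring)
  have hD : Lead (ladD F G) (2 * d + 4) 0 := ((hF.sub hXG).pow 2).mono (by omega)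
  have hFXG : Lead (F + X * G) (d + 1) (a + G.coeff d) := hF.add hXG
  have hN1 : Lead (2 * F * X * (F + X * G)) (2 * d + 4) 0 :=
    (((lead_two.mul hF).mul lead_X).mul hFXG).mono (by omega)
  have hN2 : Lead (C W.b₂ * F * G * X) (2 * d + 4) 0 :=
    ((((lead_C W.b₂).mul hF).mul hG').mul lead_X).mono (by omega)
  have hN3 : Lead (C W.b₄ * (F + X * G) * G) (2 * d + 4) 0 :=
    ((((lead_C W.b₄).mul hFXG).mul hG')).mono (by omega)
  have hN4 : Lead (C W.b₆ * G ^ 2) (2 * d + 4) 0 :=
    ((lead_C W.b₆).mul (hG'.pow 2)).mono (by omega)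
  have hN : Lead (ladN W F G) (2 * d + 4) 0 :=
    (((hN1.add hN2).add hN3).add hN4).congr rfl (by ring)
  have hT1 : Lead (F ^ 2 * X ^ 2) (2 * d + 4) (a ^ 2) :=
    ((hF.pow 2).mul (lead_X.pow 2)).congr (by ring) (by ring)
  have hT2 : Lead (C W.b₄ * F * G * X) (2 * d + 4) 0 :=
    ((((lead_C W.b₄).mul hF).mul hG').mul lead_X).mono (by omega)
  have hT3 : Lead (C W.b₆ * (F + X * G) * G) (2 * d + 4) 0 :=
    ((((lead_C W.b₆).mul hFXG).mul hG')).mono (by omega)
  have hT4 : Lead (C W.b₈ * G ^ 2) (2 * d + 4) 0 :=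
    ((lead_C W.b₈).mul (hG'.pow 2)).mono (by omega)
  have hT : Lead (ladT W F G) (2 * d + 4) (a ^ 2) :=
    (((hT1.sub hT2).sub hT3).sub hT4).congr rfl (by ring)
  have hz2 : Lead (ladD F G * C (z ^ 2)) (2 * d + 4) 0 :=
    (hD.mul (lead_C (z ^ 2))).congr (by ring) (by ring)
  have hz1 : Lead (ladN W F G * C z) (2 * d + 4) 0 :=
    (hN.mul (lead_C z)).congr (by ring) (by ring)
  exact ((hz2.sub hz1).add hT).congr rfl (by ring)

end Poly

section Points

variable {K : Type*} [Field K] [DecidableEq K] {W : WeierstrassCurve.Affine K}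
variable {m : ℕ} {Q F' G' : K[X]}

/-- The key evaluation: at `x = x(P)` the polynomial `parPoly` factors. -/
lemma eval_parPoly_px (h : IsReduced (ladF W (m + 2)) (ladG W (m + 2)) Q F' G')
    {P : W.Point} (hP : P ≠ 0) (hGP : (ladG W (m + 2)).eval (px P) ≠ 0)
    (hne : px ((m + 2) • P) ≠ px P) (z : K) :
    (parPoly W F' G' z).eval (px P)
      = (ladD F' G').eval (px P) * ((z - px ((m + 3) • P)) * (z - px ((m + 1) • P))) := by
  obtain ⟨hnP, hev, hG'⟩ := reduced_eval h (by omega) hP hGP
  have e3 : (m + 3) • P = (m + 2) • P + P := succ_nsmul P (m + 2)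
  have e1 : (m + 1) • P = (m + 2) • P - P := by
    rw [succ_nsmul P (m + 1)]; abel
  have hsum := px_add_add_px_sub hnP hP hne
  have hprod := px_add_mul_px_sub hnP hP hne
  rw [← e3, ← e1] at hsum hprod
  rw [eval_parPoly, eval_ladD, eval_ladN, eval_ladT, hev]
  linear_combination (G'.eval (px P) ^ 2 * z) * hsum - (G'.eval (px P) ^ 2) * hprod

end Points

section AlgClosed

variable {K : Type*} [Field K] [DecidableEq K] [IsAlgClosed K] [CharZero K]
variable {W : WeierstrassCurve.Affine K} {m : ℕ} {Q F' G' : K[X]}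

/-- The set of points to be avoided by the preimages. -/
def badPts (W : WeierstrassCurve.Affine K) (m : ℕ) : Set W.Point :=
  {P | (m + 1) • P = 0} ∪ {P | (m + 3) • P = 0} ∪ {P | (2 * (m + 2)) • P = 0}
    ∪ {P | P ≠ 0 ∧ (ladG W (m + 2)).eval (px P) = 0}

lemma finite_badPts : (badPts W m).Finite := by
  unfold badPts
  exact (((finite_torsion _ (by omega)).union (finite_torsion _ (by omega))).union
    (finite_torsion _ (by omega))).union (finite_eval_px_eq_zero (ladG_ne_zero W (m + 2) (by omega)))

/-- The set of target points to be avoided. -/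
def badTgt (W : WeierstrassCurve.Affine K) (m : ℕ) : Set W.Point :=
  {R | 2 • R = 0} ∪ (fun P => (m + 3) • P) '' badPts W m ∪ (fun P => (m + 1) • P) '' badPts W m

lemma finite_badTgt : (badTgt W m).Finite := by
  unfold badTgt
  exact ((finite_torsion _ (by omega)).union (finite_badPts.image _)).union (finite_badPts.image _)

/-- **Upper bound.** -/
theorem tcard_add_tcard_le (hΔ : W.Δ ≠ 0)
    (h : IsReduced (ladF W (m + 2)) (ladG W (m + 2)) Q F' G') :
    tcard W (m + 3) + tcard W (m + 1) ≤ 2 * F'.natDegree + 2 := by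
  classical
  have hG := ladG_ne_zero W (m + 2) (by omega)
  have hF := ladF_ne_zero W (m + 2) (by omega)
  have hdeg : F'.natDegree = G'.natDegree + 1 :=
    h.natDegree_F' hF hG (by
      rw [(natDegree_ladF W (m + 2) (by omega)).1, (natDegree_ladG W (m + 2) (by omega)).1])
  have hF'0 : F' ≠ 0 := h.F'_ne_zero hF
  have : Infinite W.Point := infinite_point hΔ
  obtain ⟨R₀, hR₀⟩ := (finite_badTgt (W := W) (m := m)).exists_notMem
  simp only [badTgt, Set.mem_union, Set.mem_image, not_or, not_exists, not_and] at hR₀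
  obtain ⟨⟨hR2, hR3⟩, hR1⟩ := hR₀
  have hR2' : 2 • R₀ ≠ 0 := hR2
  have hR₀0 : R₀ ≠ 0 := by
    rintro rfl
    exact hR2' (smul_zero 2)
  set z := px R₀ with hz
  set Ap : Set W.Point := {P | (m + 3) • P = R₀} with hAp
  set Am : Set W.Point := {P | (m + 1) • P = R₀} with hAm
  have hApfin : Ap.Finite := finite_smul_eq hΔ (by omega) R₀
  have hAmfin : Am.Finite := finite_smul_eq hΔ (by omega) R₀
  have hApbad : ∀ P ∈ Ap, P ∉ badPts W m := fun P hP hbad => hR3 P hbad hP
  have hAmbad : ∀ P ∈ Am, P ∉ badPts W m := fun P hP hbad => hR1 P hbad hP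
  -- consequences of not being bad
  have hgood : ∀ P : W.Point, P ∉ badPts W m →
      P ≠ 0 ∧ (2 * (m + 2)) • P ≠ 0 ∧ (ladG W (m + 2)).eval (px P) ≠ 0 ∧
        px ((m + 2) • P) ≠ px P := by
    intro P hP
    simp only [badPts, Set.mem_union, not_or] at hP
    obtain ⟨⟨⟨h1, h3⟩, h2n⟩, hGP⟩ := hP
    have h1' : (m + 1) • P ≠ 0 := h1
    have h3' : (m + 3) • P ≠ 0 := h3
    have h2n' : (2 * (m + 2)) • P ≠ 0 := h2n
    have hP0 : P ≠ 0 := by
      rintro rfl
      exact h1' (smul_zero _)
    have hGP' : (ladG W (m + 2)).eval (px P) ≠ 0 := fun h0 => hGP ⟨hP0, h0⟩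
    refine ⟨hP0, h2n', hGP', ?_⟩
    intro hpx
    have hnP : (m + 2) • P ≠ 0 := fun h0 =>
      hGP' (ladG_eval_eq_zero_of_smul_eq_zero hP0 (by omega) h0)
    rcases eq_or_eq_neg_of_px_eq hnP hP0 hpx with e | e
    · apply h1'
      have : (m + 2) • P = (m + 1) • P + P := succ_nsmul P (m + 1)
      rw [this] at e
      exact add_eq_right.mp e
    · apply h3'
      rw [succ_nsmul P (m + 2), e]
      exact neg_add_cancel P
  have hdisj : Disjoint Ap Am := by
    rw [Set.disjoint_left]
    intro P hP hP'
    have e3 : (m + 3) • P = R₀ := hP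
    have e1 : (m + 1) • P = R₀ := hP'
    obtain ⟨-, h2n, -, -⟩ := hgood P (hApbad P hP)
    apply h2n
    have e2 : 2 • P = 0 := by
      have h3 : (m + 3) • P = (m + 1) • P + 2 • P := by rw [← add_smul]
      rw [e1, e3] at h3
      exact add_eq_left.mp h3.symm
    rw [mul_comm, mul_smul, e2, smul_zero]
  have hroot : ∀ P ∈ Ap ∪ Am, px P ∈ ((parPoly W F' G' z).roots.toFinset : Set K) := by
    have hlead := lead_parPoly W (F := F') (G := G') (d := G'.natDegree) (a := F'.leadingCoeff)
      ⟨hdeg.le, by rw [← hdeg]; rfl⟩ le_rfl z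
    have hne0 : parPoly W F' G' z ≠ 0 :=
      hlead.ne_zero (pow_ne_zero 2 (leadingCoeff_ne_zero.mpr hF'0))
    intro P hP
    have hbad : P ∉ badPts W m := by
      rcases hP with hP | hP
      · exact hApbad P hP
      · exact hAmbad P hP
    obtain ⟨hP0, -, hGP, hpx⟩ := hgood P hbad
    rw [Finset.mem_coe, Multiset.mem_toFinset, mem_roots hne0, IsRoot.def,
      eval_parPoly_px h hP0 hGP hpx z]
    rcases hP with hP | hP
    · have e3 : (m + 3) • P = R₀ := hP
      rw [e3, hz, sub_self, zero_mul, mul_zero]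
    · have e1 : (m + 1) • P = R₀ := hP
      rw [e1, hz, sub_self, mul_zero, mul_zero]
  have hinj : Set.InjOn px (Ap ∪ Am) := by
    intro P hP P' hP' hpx
    have hbad : P ∉ badPts W m := by
      rcases hP with hP | hP
      · exact hApbad P hP
      · exact hAmbad P hP
    have hbad' : P' ∉ badPts W m := by
      rcases hP' with hP' | hP'
      · exact hApbad P' hP'
      · exact hAmbad P' hP'
    obtain ⟨hP0, -, -, -⟩ := hgood P hbad
    obtain ⟨hP0', h2n', -, -⟩ := hgood P' hbad'
    rcases eq_or_eq_neg_of_px_eq hP0 hP0' hpx with e | e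
    · exact e
    · exfalso
      subst e
      have key : ∀ a b : ℕ, a • (-P') = R₀ → b • P' = R₀ → (a + b) • P' = 0 := by
        intro a b ha hb
        rw [smul_neg] at ha
        have ha' : a • P' = -R₀ := by rw [← ha, neg_neg]
        rw [add_smul, hb, ha', neg_add_cancel]
      have key2 : ∀ a : ℕ, a • (-P') = R₀ → a • P' = R₀ → False := by
        intro a ha hb
        have := key a a ha hb
        rw [add_smul, hb, ← two_nsmul] at this
        exact hR2' this
      have e22 : 2 * (m + 2) = (m + 3) + (m + 1) := by ring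
      have e22' : 2 * (m + 2) = (m + 1) + (m + 3) := by ring
      rcases hP with hP | hP <;> rcases hP' with hP' | hP'
      · exact key2 _ hP hP'
      · exact h2n' (e22 ▸ key _ _ hP hP')
      · exact h2n' (e22' ▸ key _ _ hP hP')
      · exact key2 _ hP hP'
  have hle := Set.ncard_le_ncard_of_injOn px hroot hinj (Finset.finite_toSet _)
  rw [Set.ncard_union_eq hdisj hApfin hAmfin, Set.ncard_coe_finset,
    ncard_smul_eq hΔ (by omega) R₀, ncard_smul_eq hΔ (by omega) R₀] at hle
  have hlead := lead_parPoly W (F := F') (G := G') (d := G'.natDegree) (a := F'.leadingCoeff)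
    ⟨hdeg.le, by rw [← hdeg]; rfl⟩ le_rfl z
  have hnat : (parPoly W F' G' z).natDegree = 2 * G'.natDegree + 4 :=
    hlead.natDegree_eq (pow_ne_zero 2 (leadingCoeff_ne_zero.mpr hF'0))
  calc tcard W (m + 3) + tcard W (m + 1) ≤ (parPoly W F' G' z).roots.toFinset.card := hle
    _ ≤ (parPoly W F' G' z).roots.card := Multiset.toFinset_card_le _
    _ ≤ (parPoly W F' G' z).natDegree := card_roots' _
    _ = 2 * F'.natDegree + 2 := by rw [hnat, hdeg]; ring

end AlgClosed

end Fermat.Agent.Torsion
end MergeWrap_Lib_Torsion_Parallelogram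

section MergeWrap_Lib_Torsion_Card -- from Lib/Torsion/Card.lean

/-!
# The `n`-torsion of an elliptic curve over an algebraically closed field of characteristic zero
has exactly `n ^ 2` points
-/

set_option autoImplicit false

namespace Fermat.Agent.Torsion

open Polynomial S05H65

/-- A concave integer sequence vanishing at `0`, `1` and at arbitrarily large indices is zero. -/
lemma eq_zero_of_concave (f : ℕ → ℤ) (hc : ∀ m, f (m + 2) + f m ≤ 2 * f (m + 1))
    (h0 : f 0 = 0) (h1 : f 1 = 0) (hinf : ∀ N, ∃ k, N ≤ k ∧ f k = 0) : ∀ n, f n = 0 := by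
  have hg : ∀ m, f (m + 1) ≤ f m := by
    intro m
    induction m with
    | zero => rw [h0, zero_add, h1]
    | succ m ih =>
      have := hc m
      linarith
  have hanti : Antitone f := antitone_nat_of_succ_le hg
  intro n
  obtain ⟨k, hk, hfk⟩ := hinf n
  have h1 : f n ≤ 0 := h0 ▸ hanti (Nat.zero_le n)
  have h2 : 0 ≤ f n := hfk ▸ hanti hk
  exact le_antisymm h1 h2

section AlgClosed

variable {K : Type*} [Field K] [DecidableEq K] [IsAlgClosed K] [CharZero K]
variable {W : WeierstrassCurve.Affine K}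

/-- The parallelogram inequality for the torsion counts. -/
theorem tcard_add_le (hΔ : W.Δ ≠ 0) (m : ℕ) :
    tcard W (m + 3) + tcard W (m + 1) ≤ 2 * tcard W (m + 2) + 2 := by
  obtain ⟨Q, F', G', hF, hG, hcop⟩ :=
    exists_reduced (ladF W (m + 2)) (ladG W (m + 2)) (ladG_ne_zero W (m + 2) (by omega))
  have h : IsReduced (ladF W (m + 2)) (ladG W (m + 2)) Q F' G' := ⟨hF, hG, hcop⟩
  have h1 := tcard_add_tcard_le hΔ h
  have h2 := natDegree_le_tcard hΔ (by omega) h
  omega

/-- **The `n`-torsion has `n ^ 2` points.** -/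
theorem tcard_eq_sq (hΔ : W.Δ ≠ 0) {n : ℕ} (hn : 1 ≤ n) : tcard W n = n ^ 2 := by
  have key := eq_zero_of_concave (fun k => (tcard W (k + 1) : ℤ) - ((k : ℤ) + 1) ^ 2)
    (by
      intro m
      have := tcard_add_le hΔ m
      have h' : ((tcard W (m + 3) : ℕ) : ℤ) + (tcard W (m + 1) : ℕ) ≤ 2 * (tcard W (m + 2) : ℕ) + 2 := by
        exact_mod_cast this
      beta_reduce
      push_cast
      have e1 : m + 2 + 1 = m + 3 := rfl
      have e2 : m + 1 + 1 = m + 2 := rfl
      rw [e1, e2]
      nlinarith [h'])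
    (by simp [tcard_one])
    (by simp [tcard_two hΔ])
    (by
      intro N
      refine ⟨2 ^ N - 1, ?_, ?_⟩
      · have := Nat.lt_two_pow_self (n := N)
        omega
      · have hpos : 1 ≤ 2 ^ N := Nat.one_le_two_pow
        have e : 2 ^ N - 1 + 1 = 2 ^ N := Nat.sub_add_cancel hpos
        beta_reduce
        rw [e, tcard_two_pow hΔ N]
        have : ((2 ^ N - 1 : ℕ) : ℤ) + 1 = 2 ^ N := by
          have := congrArg (Nat.cast (R := ℤ)) e
          push_cast at this ⊢
          linarith
        rw [this]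
        push_cast
        rw [← pow_mul, show (4 : ℤ) = 2 ^ 2 by norm_num, ← pow_mul, mul_comm]
        ring)
  obtain ⟨k, rfl⟩ : ∃ k, n = k + 1 := ⟨n - 1, by omega⟩
  have := key k
  beta_reduce at this
  have h2 : ((tcard W (k + 1) : ℕ) : ℤ) = ((k + 1 : ℕ) : ℤ) ^ 2 := by
    push_cast
    linarith
  exact_mod_cast h2

/-- The `n`-torsion submodule (as used for Galois representations) has `n ^ 2` elements. -/
theorem card_torsionBy (hΔ : W.Δ ≠ 0) {n : ℕ} (hn : 1 ≤ n) :
    Nat.card (Submodule.torsionBy ℤ W.Point (n : ℤ)) = n ^ 2 := by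
  rw [← tcard_eq_sq hΔ hn, tcard]
  apply Nat.card_congr
  refine Equiv.subtypeEquivRight fun P => ?_
  rw [Submodule.mem_torsionBy_iff, natCast_zsmul]
  exact Iff.rfl

/-- The `n`-torsion submodule is finite. -/
theorem finite_torsionBy (hΔ : W.Δ ≠ 0) {n : ℕ} (hn : 1 ≤ n) :
    Finite (Submodule.torsionBy ℤ W.Point (n : ℤ)) := by
  apply Nat.finite_of_card_ne_zero
  rw [card_torsionBy hΔ hn]
  positivity

/-- The `n`-torsion submodule is nontrivial for `n ≥ 2`. -/
theorem nontrivial_torsionBy (hΔ : W.Δ ≠ 0) {n : ℕ} (hn : 2 ≤ n) :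
    Nontrivial (Submodule.torsionBy ℤ W.Point (n : ℤ)) := by
  have := finite_torsionBy (W := W) hΔ (by omega : 1 ≤ n)
  rw [← Finite.one_lt_card_iff_nontrivial, card_torsionBy hΔ (by omega : 1 ≤ n)]
  nlinarith

end AlgClosed

end Fermat.Agent.Torsion
end MergeWrap_Lib_Torsion_Card
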